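import Mathlib
import Fermat.Agent.LT.T7.H340.UpFactSpec

/-!
# Row LT, tower T7, leaf UF.A4 = ISO-CONT (registry row 2748, helper102)

`isoContC102 : Fermat.Agent.LT.T7.H340.IsoContC340` VERBATIM against
`T7/H340/UpFactSpec.lean` (helper340@4a08d18e4, sha256 04981afb).

A ring homomorphism `i` of valued fields with `v (i x) = v x ^ e`, `e > 0`, is continuous, and so
is `GL₂(i)`.  Proof: if the valuation of `k` is trivial the topology of `k` is discrete;
otherwise pick `x₀ ≠ 0` with `v x₀ < 1` and `N` with `v x₀ ^ N < γ'`: the ball of radius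
`v (x₀ ^ N)` is mapped into the ball of radius `γ'` (`a ≤ 1 → a ^ e ≤ a`).  `Units.map` of a
continuous monoid homomorphism is continuous.  OFF-MAIN, additive, Mathlib + the Spec only.
-/

set_option autoImplicit false

open scoped Topology
open MonoidWithZeroHom

namespace Fermat.Agent.LT.T7.H102

/-- A ring homomorphism of `ℤᵐ⁰`-valued fields with `v (i x) = v x ^ e`, `0 < e`, is
continuous. -/
theorem continuous_of_val_pow102 (k k' : Type) [Field k] [Field k']
    [Valued k (WithZero (Multiplicative ℤ))] [Valued k' (WithZero (Multiplicative ℤ))] (e : ℕ)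
    (i : k →+* k') (he : 0 < e) (hv : ∀ x : k, Valued.v (i x) = Valued.v x ^ e) :
    Continuous i := by
  by_cases hk : ∃ x₀ : k, x₀ ≠ 0 ∧ (Valued.v x₀ : WithZero (Multiplicative ℤ)) < 1
  · obtain ⟨x₀, hx₀, hlt⟩ := hk
    have hcz : ContinuousAt (i.toAddMonoidHom) 0 := by
      rw [ContinuousAt, map_zero]
      rw [(Valued.hasBasis_nhds_zero k _).tendsto_iff (Valued.hasBasis_nhds_zero k' _)]
      intro γ' _
      obtain ⟨N, hN⟩ := exists_pow_lt₀ hlt
        (Units.map (ValueGroup₀.embedding
          (f := (.ofClass (Valued.v : Valuation k' (WithZero (Multiplicative ℤ)))))) γ')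
      have hne : (Valued.v : Valuation k (WithZero (Multiplicative ℤ))).restrict (x₀ ^ N) ≠ 0 := by
        rw [Ne, Valuation.restrict_eq_zero_iff]
        simpa using pow_ne_zero N hx₀
      refine ⟨Units.mk0 _ hne, trivial, ?_⟩
      intro x hx
      have hx' : (Valued.v x : WithZero (Multiplicative ℤ)) < Valued.v (x₀ ^ N) := by
        have h0 : (Valued.v : Valuation k (WithZero (Multiplicative ℤ))).restrict x
            < (Valued.v : Valuation k (WithZero (Multiplicative ℤ))).restrict (x₀ ^ N) := hx
        exact (Valuation.restrict_lt_iff _).mp h0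
      show (Valued.v : Valuation k' (WithZero (Multiplicative ℤ))).restrict (i x) < γ'.1
      rw [Valuation.restrict_lt_iff_lt_embedding]
      have hpow : (Valued.v (x₀ ^ N) : WithZero (Multiplicative ℤ)) = Valued.v x₀ ^ N :=
        map_pow _ _ _
      have h1 : (Valued.v x₀ : WithZero (Multiplicative ℤ)) ^ N ≤ 1 := pow_le_one' hlt.le N
      have hx1 : (Valued.v x : WithZero (Multiplicative ℤ)) ≤ 1 :=
        (hx'.le.trans (hpow.le)).trans h1
      have hstep : (Valued.v x : WithZero (Multiplicative ℤ)) ^ e ≤ Valued.v x := by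
        calc (Valued.v x : WithZero (Multiplicative ℤ)) ^ e ≤ Valued.v x ^ 1 :=
              pow_le_pow_right_of_le_one' hx1 he
          _ = Valued.v x := pow_one _
      calc (Valued.v (i x) : WithZero (Multiplicative ℤ)) = Valued.v x ^ e := hv x
        _ ≤ Valued.v x := hstep
        _ < Valued.v (x₀ ^ N) := hx'
        _ = Valued.v x₀ ^ N := hpow
        _ < _ := hN
    exact continuous_of_continuousAt_zero i.toAddMonoidHom hcz
  · push Not at hk
    have hone : ∀ x : k, x ≠ 0 → (Valued.v x : WithZero (Multiplicative ℤ)) = 1 := by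
      intro x hx
      refine le_antisymm ?_ (hk x hx)
      have h := hk x⁻¹ (inv_ne_zero hx)
      rw [map_inv₀] at h
      have hvx : (Valued.v x : WithZero (Multiplicative ℤ)) ≠ 0 := by
        simpa using hx
      exact (one_le_inv₀ (zero_lt_iff.mpr hvx)).mp h
    have : DiscreteTopology k := Valued.discreteTopology_of_forall_map_eq_one hone
    exact continuous_of_discreteTopology

/-- `GL₂` of a continuous ring homomorphism is continuous. -/
theorem continuous_glMap102 (k k' : Type) [Field k] [Field k'] [TopologicalSpace k]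
    [TopologicalSpace k'] (i : k →+* k') (hi : Continuous i) :
    Continuous (Matrix.GeneralLinearGroup.map (n := Fin 2) i) := by
  have hm : Continuous (RingHom.mapMatrix (m := Fin 2) i) := by
    show Continuous fun A : Matrix (Fin 2) (Fin 2) k => A.map i
    exact Continuous.matrix_map continuous_id hi
  exact Continuous.units_map (RingHom.mapMatrix (m := Fin 2) i).toMonoidHom hm

/-- **LEAF UF.A4 = ISO-CONT**, verbatim. -/
theorem isoContC102 : Fermat.Agent.LT.T7.H340.IsoContC340 := by
  intro k k' _ _ _ _ e i he hv
  exact ⟨continuous_of_val_pow102 k k' e i he hv,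
    continuous_glMap102 k k' i (continuous_of_val_pow102 k k' e i he hv)⟩

end Fermat.Agent.LT.T7.H102
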