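import Mathlib
import Fermat.Agent.LT.T7.H563.PTSpec

/-!
# Row LT, tower T7, leaf PT.4 = TR-PURE (registry row 2802, helper102)

`trPureC102 K : PT563.TrPureC563 K` and `trPureQC102 : PT563.TrPureQC563`, VERBATIM against
`T7/H563/PTSpec.lean` (helper563@d74a8461a, sha256 c4658dddcfd9e138).

The left translate of a pure tensor by an element `b` which is integral with integral inverse
outside `T` is the pure tensor of the translated components: the components are monoid
homomorphisms, and `OutT305 T (b⁻¹ y) ↔ OutT305 T y` because the integral matrices at a finite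
place are closed under products.  OFF-MAIN, additive; the definitions of the Spec are unfolded
by `rfl` only (no equation lemma of a foreign definition is realised here).
-/

set_option autoImplicit false

open AutomorphicForm IsDedekindDomain NumberField

noncomputable section

namespace Fermat.Agent.LT.T7.H102

open Fermat.Agent.LT.H556 Fermat.Agent.LT.H556.A0 Fermat.Agent.LT.T7
  Fermat.Agent.LT.T7.H305 Fermat.Agent.LT.T7.MQ298

section OneField

variable {K : Type} [Field K] [NumberField K]

/-- The component at a finite place is multiplicative. -/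
theorem finComp_mul102 (v : HeightOneSpectrum (𝓞 K)) (g h : G K) :
    finComp v (g * h) = finComp v g * finComp v h := by
  have e : ∀ x : G K, finComp v x
      = (x : Matrix (Fin 2) (Fin 2) (Adl K)).map (Fermat.Agent.LT.T5.finHom v) := fun _ => rfl
  rw [e, e, e, Units.val_mul, Matrix.map_mul]

/-- Integral matrices at `v` are closed under products. -/
theorem isIntegralAt_mul102 (v : HeightOneSpectrum (𝓞 K)) {g h : G K}
    (hg : IsIntegralAt v g) (hh : IsIntegralAt v h) : IsIntegralAt v (g * h) := by
  intro i j
  rw [finComp_mul102, Matrix.mul_apply]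
  exact Subring.sum_mem _ fun k _ => Subring.mul_mem _ (hg i k) (hh k j)

/-- `OutT305 T` is closed under products. -/
theorem outT_mul102 (T : Finset (HeightOneSpectrum (𝓞 K))) {g h : G K}
    (hg : OutT305 T g) (hh : OutT305 T h) : OutT305 T (g * h) := by
  intro v hv
  refine ⟨isIntegralAt_mul102 v (hg v hv).1 (hh v hv).1, ?_⟩
  rw [mul_inv_rev]
  exact isIntegralAt_mul102 v (hh v hv).2 (hg v hv).2

/-- `OutT305 T` is closed under inverses. -/
theorem outT_inv102 (T : Finset (HeightOneSpectrum (𝓞 K))) {g : G K}
    (hg : OutT305 T g) : OutT305 T g⁻¹ := by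
  intro v hv
  refine ⟨(hg v hv).2, ?_⟩
  rw [inv_inv]
  exact (hg v hv).1

/-- Left translation by an element of `OutT305 T` does not change `OutT305 T`. -/
theorem outT_inv_mul_iff102 (T : Finset (HeightOneSpectrum (𝓞 K))) {b : G K}
    (hb : OutT305 T b) (y : G K) : OutT305 T (b⁻¹ * y) ↔ OutT305 T y := by
  constructor
  · intro h
    have := outT_mul102 T hb h
    rwa [mul_inv_cancel_left] at this
  · intro h
    exact outT_mul102 T (outT_inv102 T hb) h

end OneField

open Classical in
/-- **LEAF PT.4 = TR-PURE**, verbatim. -/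
theorem trPureC102 (K : Type) [Field K] [NumberField K] : PT563.TrPureC563 K := by
  intro T b hb f₀ F y
  have key : ∀ (f : ∀ v : HeightOneSpectrum (𝓞 K), GL (Fin 2) (v.adicCompletion K) → ℂ)
      (Φ : InfinitePlace K → GL (Fin 2) ℂ → ℂ) (h : G K),
      pure305 T f Φ h = if OutT305 T h then
        (∏ v ∈ T, f v (finGL305 v h)) * ∏ w : InfinitePlace K, Φ w (infGL305 w h)
      else 0 := fun _ _ _ => rfl
  rw [key, key]
  by_cases hy : OutT305 T y
  · rw [if_pos hy, if_pos ((outT_inv_mul_iff102 T hb y).mpr hy)]
    simp only [map_mul, map_inv]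
  · rw [if_neg hy, if_neg (fun h => hy ((outT_inv_mul_iff102 T hb y).mp h))]

open Classical in
/-- **LEAF PT.4Q = TR-PURE over `ℚ`**, verbatim. -/
theorem trPureQC102 : PT563.TrPureQC563 := by
  intro T b hb f₀ F y
  have key : ∀ (f : ∀ v : HeightOneSpectrum (𝓞 ℚ), GL (Fin 2) (v.adicCompletion ℚ) → ℂ)
      (Φ : GL (Fin 2) ℝ → ℂ) (h : G ℚ),
      pureQ298 T f Φ h = if OutT305 T h then
        (∏ v ∈ T, f v (finGL305 v h)) * Φ (reGLQ298 h)
      else 0 := fun _ _ _ => rfl
  rw [key, key]
  by_cases hy : OutT305 T y
  · rw [if_pos hy, if_pos ((outT_inv_mul_iff102 T hb y).mpr hy)]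
    simp only [map_mul, map_inv]
  · rw [if_neg hy, if_neg (fun h => hy ((outT_inv_mul_iff102 T hb y).mp h))]

end Fermat.Agent.LT.T7.H102

end
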